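import Mathlib

/-!
# Row LT, tower T2, leaf T2.02d.5a (helper570): the abstract form

OFF-MAIN.  Mathlib only.  For a field `L` with a valuation `ν` and `M ∈ GL₂(L)` there are
`A, B ∈ GL₂(𝒪_ν)` (given with their inverses, all entries of valuation `≤ 1`) with
`adjugate M = A M B`.

Proof.  `adjugate M = J Mᵀ J⁻¹` with `J = [[0,1],[-1,0]]`, and `Mᵀ = A₀ M B₀`: if `M 0 0 ≠ 0`
has the largest valuation among `M 0 0, M 0 1, M 1 0`, put `t = (M 0 1 - M 1 0) / M 0 0`; then
`[[1,0],[t,1]] M [[1,-t],[0,1]] = Mᵀ`.  In general one of the four entries has the largest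
valuation among itself and its two neighbours, and a permutation of the rows and/or of the
columns moves it to the position `(0,0)`.
-/

set_option autoImplicit false

namespace Fermat.Agent.LT.T2.H570

open Matrix

variable {L : Type*} [Field L] {Γ₀ : Type*} [LinearOrderedCommGroupWithZero Γ₀]

/-- All entries have valuation `≤ 1`. -/
def IsInt570 (ν : Valuation L Γ₀) (A : Matrix (Fin 2) (Fin 2) L) : Prop :=
  ∀ i j, ν (A i j) ≤ 1

theorem isInt570_mul (ν : Valuation L Γ₀) {A B : Matrix (Fin 2) (Fin 2) L}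
    (hA : IsInt570 ν A) (hB : IsInt570 ν B) : IsInt570 ν (A * B) := by
  intro i j
  rw [Matrix.mul_apply, Fin.sum_univ_two]
  refine (ν.map_add _ _).trans (max_le ?_ ?_)
  · rw [ν.map_mul]; exact mul_le_one' (hA i 0) (hB 0 j)
  · rw [ν.map_mul]; exact mul_le_one' (hA i 1) (hB 1 j)

/-- `A ∈ GL₂(𝒪_ν)`, with the inverse `A'`. -/
structure IsIntPair570 (ν : Valuation L Γ₀) (A A' : Matrix (Fin 2) (Fin 2) L) : Prop where
  mul : A * A' = 1
  int : IsInt570 ν A
  int' : IsInt570 ν A'

theorem IsIntPair570.mul_pair (ν : Valuation L Γ₀) {A A' B B' : Matrix (Fin 2) (Fin 2) L}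
    (hA : IsIntPair570 ν A A') (hB : IsIntPair570 ν B B') :
    IsIntPair570 ν (A * B) (B' * A') where
  mul := by
    calc A * B * (B' * A') = A * (B * B') * A' := by simp only [Matrix.mul_assoc]
      _ = 1 := by rw [hB.mul, Matrix.mul_one, hA.mul]
  int := isInt570_mul ν hA.int hB.int
  int' := isInt570_mul ν hB.int' hA.int'

/-- The relation `N = A M B` with `A, B ∈ GL₂(𝒪_ν)`. -/
def Rel570 (ν : Valuation L Γ₀) (M N : Matrix (Fin 2) (Fin 2) L) : Prop :=
  ∃ A A' B B' : Matrix (Fin 2) (Fin 2) L,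
    IsIntPair570 ν A A' ∧ IsIntPair570 ν B B' ∧ N = A * M * B

/-- The permutation matrix. -/
def swap570 (L : Type*) [Field L] : Matrix (Fin 2) (Fin 2) L := !![0, 1; 1, 0]

theorem swap570_mul_swap570 : swap570 L * swap570 L = 1 := by
  ext i j
  fin_cases i <;> fin_cases j <;>
    simp only [Matrix.mul_apply, Fin.sum_univ_two, swap570] <;> simp

theorem swap570_transpose : (swap570 L)ᵀ = swap570 L := by
  ext i j; fin_cases i <;> fin_cases j <;> simp [swap570]

theorem isInt570_swap (ν : Valuation L Γ₀) : IsInt570 ν (swap570 L) := by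
  intro i j; fin_cases i <;> fin_cases j <;> simp [swap570]

theorem isIntPair570_swap (ν : Valuation L Γ₀) : IsIntPair570 ν (swap570 L) (swap570 L) :=
  ⟨swap570_mul_swap570, isInt570_swap ν, isInt570_swap ν⟩

/-- The rotation `J = [[0,1],[-1,0]]` and its inverse. -/
def rot570 (L : Type*) [Field L] : Matrix (Fin 2) (Fin 2) L := !![0, 1; -1, 0]

/-- The inverse of `J`. -/
def rotInv570 (L : Type*) [Field L] : Matrix (Fin 2) (Fin 2) L := !![0, -1; 1, 0]

theorem isIntPair570_rot (ν : Valuation L Γ₀) : IsIntPair570 ν (rot570 L) (rotInv570 L) where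
  mul := by
    ext i j
    fin_cases i <;> fin_cases j <;>
      simp only [Matrix.mul_apply, Fin.sum_univ_two, rot570, rotInv570] <;> simp
  int := by intro i j; fin_cases i <;> fin_cases j <;> simp [rot570]
  int' := by intro i j; fin_cases i <;> fin_cases j <;> simp [rotInv570]

theorem isIntPair570_rotInv (ν : Valuation L Γ₀) : IsIntPair570 ν (rotInv570 L) (rot570 L) where
  mul := by
    ext i j
    fin_cases i <;> fin_cases j <;>
      simp only [Matrix.mul_apply, Fin.sum_univ_two, rot570, rotInv570] <;> simp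
  int := by intro i j; fin_cases i <;> fin_cases j <;> simp [rotInv570]
  int' := by intro i j; fin_cases i <;> fin_cases j <;> simp [rot570]

/-- `adjugate M = J Mᵀ J⁻¹`. -/
theorem adjugate_eq_rot570 (M : Matrix (Fin 2) (Fin 2) L) :
    M.adjugate = rot570 L * Mᵀ * rotInv570 L := by
  rw [Matrix.adjugate_fin_two]
  ext i j
  fin_cases i <;> fin_cases j <;>
    simp only [Matrix.mul_apply, Fin.sum_univ_two, Matrix.transpose_apply, rot570,
      rotInv570] <;>
    simp

/-- The core case: `M 0 0 ≠ 0` has the largest valuation among `M 0 0`, `M 0 1`, `M 1 0`. -/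
theorem rel570_core (ν : Valuation L Γ₀) (M : Matrix (Fin 2) (Fin 2) L) (h0 : M 0 0 ≠ 0)
    (h1 : ν (M 0 1) ≤ ν (M 0 0)) (h2 : ν (M 1 0) ≤ ν (M 0 0)) : Rel570 ν M Mᵀ := by
  set t : L := (M 0 1 - M 1 0) / M 0 0 with ht
  have hta : t * M 0 0 = M 0 1 - M 1 0 := by rw [ht]; field_simp
  have hνt : ν t ≤ 1 := by
    rw [ht, map_div₀]
    have hpos : (0 : Γ₀) < ν (M 0 0) := by
      rw [Valuation.pos_iff]; exact h0
    rw [div_le_one₀ hpos]
    exact (ν.map_sub _ _).trans (max_le h1 h2)
  have hνnt : ν (-t) ≤ 1 := by rw [Valuation.map_neg]; exact hνt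
  refine ⟨!![1, 0; t, 1], !![1, 0; -t, 1], !![1, -t; 0, 1], !![1, t; 0, 1], ⟨?_, ?_, ?_⟩,
    ⟨?_, ?_, ?_⟩, ?_⟩
  · ext i j
    fin_cases i <;> fin_cases j <;> simp only [Matrix.mul_apply, Fin.sum_univ_two] <;> simp
  · intro i j; fin_cases i <;> fin_cases j <;> simp [hνt]
  · intro i j; fin_cases i <;> fin_cases j <;> simp [hνt]
  · ext i j
    fin_cases i <;> fin_cases j <;> simp only [Matrix.mul_apply, Fin.sum_univ_two] <;> simp
  · intro i j; fin_cases i <;> fin_cases j <;> simp [hνt]
  · intro i j; fin_cases i <;> fin_cases j <;> simp [hνt]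
  · ext i j
    fin_cases i <;> fin_cases j <;>
      simp only [Matrix.mul_apply, Fin.sum_univ_two, Matrix.transpose_apply] <;>
      simp
    · linear_combination hta
    · linear_combination -hta
    · linear_combination t * hta

/-- Transport along a permutation of the rows. -/
theorem rel570_of_swap_left (ν : Valuation L Γ₀) (M : Matrix (Fin 2) (Fin 2) L)
    (h : Rel570 ν (swap570 L * M) (swap570 L * M)ᵀ) : Rel570 ν M Mᵀ := by
  obtain ⟨A, A', B, B', hA, hB, e⟩ := h
  refine ⟨A * swap570 L, swap570 L * A', B * swap570 L, swap570 L * B',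
    hA.mul_pair ν (isIntPair570_swap ν), hB.mul_pair ν (isIntPair570_swap ν), ?_⟩
  rw [Matrix.transpose_mul, swap570_transpose] at e
  calc Mᵀ = Mᵀ * swap570 L * swap570 L := by
        rw [Matrix.mul_assoc, swap570_mul_swap570, Matrix.mul_one]
    _ = A * (swap570 L * M) * B * swap570 L := by rw [e]
    _ = A * swap570 L * M * (B * swap570 L) := by simp only [Matrix.mul_assoc]

/-- Transport along a permutation of the columns. -/
theorem rel570_of_swap_right (ν : Valuation L Γ₀) (M : Matrix (Fin 2) (Fin 2) L)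
    (h : Rel570 ν (M * swap570 L) (M * swap570 L)ᵀ) : Rel570 ν M Mᵀ := by
  obtain ⟨A, A', B, B', hA, hB, e⟩ := h
  refine ⟨swap570 L * A, A' * swap570 L, swap570 L * B, B' * swap570 L,
    (isIntPair570_swap ν).mul_pair ν hA, (isIntPair570_swap ν).mul_pair ν hB, ?_⟩
  rw [Matrix.transpose_mul, swap570_transpose] at e
  calc Mᵀ = swap570 L * (swap570 L * Mᵀ) := by
        rw [← Matrix.mul_assoc, swap570_mul_swap570, Matrix.one_mul]
    _ = swap570 L * (A * (M * swap570 L) * B) := by rw [e]
    _ = swap570 L * A * M * (swap570 L * B) := by simp only [Matrix.mul_assoc]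

/-- Every invertible `M` is related to its transpose. -/
theorem rel570_transpose (ν : Valuation L Γ₀) (M : Matrix (Fin 2) (Fin 2) L) (hM : M.det ≠ 0) :
    Rel570 ν M Mᵀ := by
  rw [Matrix.det_fin_two] at hM
  have hz : ∀ x y : L, ν x ≤ ν y → y = 0 → x = 0 := by
    intro x y hxy hy
    rw [hy, map_zero] at hxy
    exact ν.zero_iff.mp (le_antisymm hxy zero_le)
  by_cases ha : ν (M 0 1) ≤ ν (M 0 0) ∧ ν (M 1 0) ≤ ν (M 0 0)
  · -- the entry `(0,0)`
    refine rel570_core ν M ?_ ha.1 ha.2
    intro h0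
    apply hM
    rw [hz _ _ ha.1 h0, h0]; ring
  by_cases hd : ν (M 0 1) ≤ ν (M 1 1) ∧ ν (M 1 0) ≤ ν (M 1 1)
  · -- the entry `(1,1)`
    apply rel570_of_swap_left
    apply rel570_of_swap_right
    have e00 : (swap570 L * M * swap570 L) 0 0 = M 1 1 := by
      simp only [Matrix.mul_apply, Fin.sum_univ_two, swap570]; simp
    have e01 : (swap570 L * M * swap570 L) 0 1 = M 1 0 := by
      simp only [Matrix.mul_apply, Fin.sum_univ_two, swap570]; simp
    have e10 : (swap570 L * M * swap570 L) 1 0 = M 0 1 := by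
      simp only [Matrix.mul_apply, Fin.sum_univ_two, swap570]; simp
    refine rel570_core ν _ ?_ ?_ ?_
    · rw [e00]
      intro h0
      apply hM
      rw [hz _ _ hd.1 h0, h0]; ring
    · rw [e00, e01]; exact hd.2
    · rw [e00, e10]; exact hd.1
  -- now the largest of the two off-diagonal entries dominates the diagonal
  rcases le_total (ν (M 1 0)) (ν (M 0 1)) with hcb | hbc
  · -- the entry `(0,1)`
    have h1 : ν (M 0 0) ≤ ν (M 0 1) := by
      by_contra h
      rw [not_le] at h
      exact ha ⟨h.le, hcb.trans h.le⟩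
    have h2 : ν (M 1 1) ≤ ν (M 0 1) := by
      by_contra h
      rw [not_le] at h
      exact hd ⟨h.le, hcb.trans h.le⟩
    apply rel570_of_swap_right
    have e00 : (M * swap570 L) 0 0 = M 0 1 := by
      simp only [Matrix.mul_apply, Fin.sum_univ_two, swap570]; simp
    have e01 : (M * swap570 L) 0 1 = M 0 0 := by
      simp only [Matrix.mul_apply, Fin.sum_univ_two, swap570]; simp
    have e10 : (M * swap570 L) 1 0 = M 1 1 := by
      simp only [Matrix.mul_apply, Fin.sum_univ_two, swap570]; simp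
    refine rel570_core ν _ ?_ ?_ ?_
    · rw [e00]
      intro h0
      apply hM
      rw [hz _ _ h1 h0, h0]; ring
    · rw [e00, e01]; exact h1
    · rw [e00, e10]; exact h2
  · -- the entry `(1,0)`
    have h1 : ν (M 0 0) ≤ ν (M 1 0) := by
      by_contra h
      rw [not_le] at h
      exact ha ⟨hbc.trans h.le, h.le⟩
    have h2 : ν (M 1 1) ≤ ν (M 1 0) := by
      by_contra h
      rw [not_le] at h
      exact hd ⟨hbc.trans h.le, h.le⟩
    apply rel570_of_swap_left
    have e00 : (swap570 L * M) 0 0 = M 1 0 := by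
      simp only [Matrix.mul_apply, Fin.sum_univ_two, swap570]; simp
    have e01 : (swap570 L * M) 0 1 = M 1 1 := by
      simp only [Matrix.mul_apply, Fin.sum_univ_two, swap570]; simp
    have e10 : (swap570 L * M) 1 0 = M 0 0 := by
      simp only [Matrix.mul_apply, Fin.sum_univ_two, swap570]; simp
    refine rel570_core ν _ ?_ ?_ ?_
    · rw [e00]
      intro h0
      apply hM
      rw [hz _ _ h1 h0, h0]; ring
    · rw [e00, e01]; exact h2
    · rw [e00, e10]; exact h1

/-- **The abstract form of T2.02d.5a**: `adjugate M = A M B` with `A, B ∈ GL₂(𝒪_ν)`. -/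
theorem adjugate_rel570 (ν : Valuation L Γ₀) (M : Matrix (Fin 2) (Fin 2) L) (hM : M.det ≠ 0) :
    ∃ A A' B B' : Matrix (Fin 2) (Fin 2) L,
      A * A' = 1 ∧ B * B' = 1 ∧
      (∀ i j, ν (A i j) ≤ 1) ∧ (∀ i j, ν (A' i j) ≤ 1) ∧
      (∀ i j, ν (B i j) ≤ 1) ∧ (∀ i j, ν (B' i j) ≤ 1) ∧
      M.adjugate = A * M * B := by
  obtain ⟨A, A', B, B', hA, hB, e⟩ := rel570_transpose ν M hM
  have hA2 := (isIntPair570_rot ν).mul_pair ν hA
  have hB2 := hB.mul_pair ν (isIntPair570_rotInv ν)
  refine ⟨rot570 L * A, A' * rotInv570 L, B * rotInv570 L, rot570 L * B',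
    hA2.mul, hB2.mul, hA2.int, hA2.int', hB2.int, hB2.int', ?_⟩
  rw [adjugate_eq_rot570, e]
  simp only [Matrix.mul_assoc]

end Fermat.Agent.LT.T2.H570
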