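import Fermat.Agent.LT.T2.H724.CommSpec
import Fermat.Agent.LT.T2.H570.LocFinAbs

/-!
# Row LT, tower T2, leaf T2.02d.5a `LocFinC724` (helper570)

OFF-MAIN.  `leafLocFin570 K : T2.H724.LocFinC724 K`, VERBATIM against
`LT/T2/H724/CommSpec.lean` (helper724, sha256 78972da3), unconditional: the abstract statement of
`LocFinAbs.lean` for the valuation `Valued.v` of `v.adicCompletion K`.
-/

set_option autoImplicit false

open IsDedekindDomain NumberField

namespace Fermat.Agent.LT.T2.H570

/-- **T2.02d.5a**: for `M ∈ GL₂(K_v)` there are `A, B ∈ GL₂(𝒪_v)` with `adjugate M = A M B`. -/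
theorem leafLocFin570 (K : Type) [Field K] [NumberField K] :
    Fermat.Agent.LT.T2.H724.LocFinC724 K := by
  intro v M hM
  exact adjugate_rel570 (Valued.v : Valuation (v.adicCompletion K) (WithZero (Multiplicative ℤ)))
    M hM

end Fermat.Agent.LT.T2.H570
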